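import Fermat.Agent.SingularCardinals.Fodor

/-!
# Almost disjoint families of functions

The method of Baumgartner and Prikry: almost disjoint functions which are below a continuous
sequence on stationary sets are few.
-/

set_option autoImplicit false

universe u

namespace FA.SingularCardinals

open Cardinal Set

variable {I ι ι' : Type u} [LinearOrder I]

/-- Two members agree only on a bounded set. -/
def AlmostDisjoint (f : ι → I → Ordinal.{u}) : Prop :=
  ∀ a b, a ≠ b → ¬IsCofinal {i | f a i = f b i}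

theorem AlmostDisjoint.comp {f : ι → I → Ordinal.{u}} (h : AlmostDisjoint f) {r : ι' → ι}
    (hr : Function.Injective r) : AlmostDisjoint fun a => f (r a) :=
  fun _ _ hab => h _ _ (hr.ne hab)

/-- An injection of all ordinals pushing an initial segment below a given bound. -/
theorem exists_compress {g o : Ordinal.{u}} (h : (g + 1).card ≤ o.card) :
    ∃ e : Ordinal.{u} → Ordinal.{u}, Function.Injective e ∧ ∀ y ≤ g, e y < o := by
  classical
  rw [← mk_toType, ← mk_toType] at h
  obtain ⟨emb⟩ := h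
  let e : Ordinal.{u} → Ordinal.{u} := fun y =>
    if hy : y < g + 1 then (Ordinal.ToType.toOrd (emb (Ordinal.ToType.mk ⟨y, hy⟩))).1 else o + y
  have hlt : ∀ y, (hy : y < g + 1) → e y < o := fun y hy => by
    simp only [e, dif_pos hy]
    exact (Ordinal.ToType.toOrd _).2
  refine ⟨e, fun y z hyz => ?_, fun y hy => hlt y (Order.lt_add_one_iff.2 hy)⟩
  by_cases hy : y < g + 1 <;> by_cases hz : z < g + 1
  · simp only [e, dif_pos hy, dif_pos hz] at hyz
    simpa using emb.injective (Ordinal.ToType.mk.symm.injective (Subtype.ext hyz))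
  · have h1 := hlt y hy
    rw [hyz] at h1
    simp only [e, dif_neg hz] at h1
    exact absurd h1 (not_lt.2 le_self_add)
  · have h1 := hlt z hz
    rw [← hyz] at h1
    simp only [e, dif_neg hy] at h1
    exact absurd h1 (not_lt.2 le_self_add)
  · simp only [e, dif_neg hy, dif_neg hz] at hyz
    exact (add_right_inj o).1 hyz

/-- A family pushed below a bound where it was below a function of no greater size. -/
theorem AlmostDisjoint.exists_compressed {f : ι → I → Ordinal.{u}} (h : AlmostDisjoint f)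
    (g o : I → Ordinal.{u}) :
    ∃ f' : ι → I → Ordinal.{u}, AlmostDisjoint f' ∧
      ∀ a i, (g i + 1).card ≤ (o i).card → f a i ≤ g i → f' a i < o i := by
  classical
  have hex : ∀ i, ∃ e : Ordinal.{u} → Ordinal.{u}, Function.Injective e ∧
      ((g i + 1).card ≤ (o i).card → ∀ y ≤ g i, e y < o i) := fun i => by
    by_cases hi : (g i + 1).card ≤ (o i).card
    · exact (exists_compress hi).imp fun e he => ⟨he.1, fun _ => he.2⟩
    · exact ⟨id, Function.injective_id, fun h => absurd h hi⟩
  choose e he hlt using hex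
  refine ⟨fun a i => e i (f a i), fun a b hab hc => h a b hab ?_,
    fun a i hi hle => hlt i hi _ hle⟩
  exact hc.mono fun i hi => he i hi

variable [WellFoundedLT I]

/-- **Few functions below a continuous sequence.** -/
theorem card_almostDisjoint_le (hI : RegularIndex I) {S : Set I}
    {c : I → Ordinal.{u}} (hcont : ∀ i ∈ S, ∀ x < c i, ∃ j < i, x < c j) {κ : Cardinal.{u}}
    (hκ : ℵ₀ ≤ κ) (hsmall : ∀ j, ((c j).card + 1) ^ #I ≤ κ) (hpow : 2 ^ #I ≤ κ)
    {f : ι → I → Ordinal.{u}} (hf : AlmostDisjoint f)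
    (hlt : ∀ a, IsStationary {i ∈ S | f a i < c i}) : #ι ≤ κ := by
  classical
  have hj : ∀ a, ∃ j, IsStationary {i ∈ S | f a i < c j} := fun a => by
    have hex : ∀ i, ∃ j, i ∈ S → f a i < c i → j < i ∧ f a i < c j := fun i => by
      by_cases hi : i ∈ S ∧ f a i < c i
      · exact (hcont i hi.1 _ hi.2).imp fun j hj _ _ => hj
      · exact ⟨i, fun h1 h2 => absurd ⟨h1, h2⟩ hi⟩
    choose r hr using hex
    obtain ⟨j, hj⟩ := exists_stationary_fiber hI (hlt a) r fun i hi => (hr i hi.1 hi.2).1
    exact ⟨j, hj.mono fun i hi => ⟨hi.1.1, hi.2 ▸ (hr i hi.1.1 hi.1.2).2⟩⟩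
  choose j hj using hj
  let code : ι → Σ j, I → Option (c j).ToType := fun a => ⟨j a, fun i =>
    if h : i ∈ S ∧ f a i < c (j a) then some (Ordinal.ToType.mk ⟨f a i, h.2⟩) else none⟩
  have hinj : Function.Injective code := fun a b hab => by
    by_contra hne
    refine hf a b hne fun x => ?_
    obtain ⟨i, hi, hxi⟩ := exists_gt_of_isStationary hI (hj a) x
    refine ⟨i, ?_, hxi.le⟩
    have key : ∀ (p q : Σ j, I → Option (c j).ToType), p = q → ∀ y : (c p.1).ToType,
        p.2 i = some y → ∃ y' : (c q.1).ToType, q.2 i = some y' ∧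
          (Ordinal.ToType.toOrd y).1 = (Ordinal.ToType.toOrd y').1 := by
      rintro p q rfl y hy
      exact ⟨y, hy, rfl⟩
    obtain ⟨y', hy', heq⟩ := key (code a) (code b) hab (Ordinal.ToType.mk ⟨f a i, hi.2⟩)
      (dif_pos (show i ∈ S ∧ f a i < c (j a) from hi))
    change dite _ _ _ = _ at hy'
    split_ifs at hy' with hb
    cases hy'
    simpa using heq
  refine (mk_le_of_injective hinj).trans ?_
  rw [mk_sigma]
  refine (sum_le_lift_mk_mul_iSup _).trans ?_
  rw [lift_id]
  refine (mul_le_mul' ((cantor #I).le.trans hpow) (ciSup_le' fun j => ?_)).trans (mul_eq_self hκ).le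
  rw [mk_arrow, lift_id, lift_id, mk_option, mk_toType]
  exact hsmall j

/-- **Few predecessors.** -/
theorem card_predecessors_le (hI : RegularIndex I) {S : Set I}
    {c : I → Ordinal.{u}} (hcont : ∀ i ∈ S, ∀ x < c i, ∃ j < i, x < c j) {κ : Cardinal.{u}}
    (hκ : ℵ₀ ≤ κ) (hsmall : ∀ j, ((c j).card + 1) ^ #I ≤ κ) (hpow : 2 ^ #I ≤ κ)
    {f : ι → I → Ordinal.{u}} (hf : AlmostDisjoint f) (g : I → Ordinal.{u})
    (hg : ∀ i ∈ S, (g i + 1).card ≤ (c i).card) :
    #{b : ι // IsStationary {i ∈ S | f b i ≤ g i}} ≤ κ := by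
  obtain ⟨f', hf', hlt⟩ := hf.exists_compressed g c
  exact card_almostDisjoint_le hI hcont hκ hsmall hpow (hf'.comp Subtype.val_injective)
    fun b => b.2.mono fun i hi => ⟨hi.1, hlt _ i (hg i hi.1) hi.2⟩

omit [LinearOrder I] [WellFoundedLT I] in
/-- A total relation with small sets of predecessors lives on a set of at most the next size. -/
theorem card_le_succ_of_predecessors {R : ι → ι → Prop} {κ : Cardinal.{u}} (hκ : ℵ₀ ≤ κ)
    (htot : ∀ a b, R a b ∨ R b a) (hsmall : ∀ a, #{b // R b a} ≤ κ) : #ι ≤ Order.succ κ := by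
  by_contra! hlt
  obtain ⟨G, hG⟩ := le_mk_iff_exists_set.1 hlt.le
  have hsucc : ℵ₀ ≤ Order.succ κ := hκ.trans (Order.le_succ κ)
  have hU : #(⋃ g : G, {b | R b g} : Set ι) ≤ Order.succ κ :=
    (mk_iUnion_le _).trans ((mul_le_mul' hG.le
      (ciSup_le' fun g : G => (hsmall g.1).trans (Order.le_succ κ))).trans (mul_eq_self hsucc).le)
  obtain ⟨a, ha⟩ : ∃ a, a ∉ (⋃ g : G, {b | R b g}) := by
    by_contra! hall
    rw [eq_univ_of_forall hall, mk_univ] at hU
    exact hU.not_gt hlt
  have hGa : G ⊆ {b | R b a} := fun g hg =>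
    (htot g a).resolve_right fun h => ha (mem_iUnion.2 ⟨⟨g, hg⟩, h⟩)
  exact (Order.lt_succ κ).not_ge (hG.ge.trans ((mk_le_mk_of_subset hGa).trans (hsmall a)))

end FA.SingularCardinals
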