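import Fermat.Agent.SingularCardinals.AlmostDisjoint

/-!
# Continuous cofinal sequences and traces

A limit ordinal of uncountable cofinality carries a continuous cofinal sequence indexed by its
cofinality, along which the subsets of the matching aleph leave almost disjoint traces.
-/

set_option autoImplicit false

universe u

namespace FA.SingularCardinals

open Cardinal Set Ordinal

/-- The index order of the cofinality. -/
abbrev CofIndex (η : Ordinal.{u}) : Type u := η.cof.ord.ToType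

theorem mk_cofIndex (η : Ordinal.{u}) : #(CofIndex η) = η.cof := by
  rw [mk_toType, card_ord]

theorem regularIndex_cofIndex {η : Ordinal.{u}} (hη : ℵ₀ < η.cof) :
    RegularIndex (CofIndex η) := by
  have hc : Order.cof (CofIndex η) = η.cof := by rw [cof_toType, cof_ord_cof]
  exact ⟨by rw [hc]; exact hη, fun i =>
    ((mk_Iio_lt i (by rw [mk_toType, card_ord, type_toType])).trans_eq
      (mk_cofIndex η)).trans_eq hc.symm⟩

theorem isSuccLimit_of_cof {η : Ordinal.{u}} (hη : ℵ₀ < η.cof) : Order.IsSuccLimit η :=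
  Ordinal.one_lt_cof_iff.1 (one_lt_aleph0.trans hη)

/-- **A continuous cofinal sequence.** -/
theorem exists_normal_seq {η : Ordinal.{u}} (hη : ℵ₀ < η.cof) :
    ∃ c : CofIndex η → Ordinal.{u}, StrictMono c ∧ (∀ i, c i < η) ∧ (∀ x < η, ∃ i, x < c i) ∧
      ∀ i, (∀ j < i, ∃ k, j < k ∧ k < i) → ∀ x < c i, ∃ j < i, x < c j := by
  classical
  have hI := regularIndex_cofIndex hη
  have hlim := isSuccLimit_of_cof hη
  obtain ⟨s, hs, hsc⟩ := Order.exists_cof_eq η.ToType
  rw [cof_toType] at hsc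
  obtain ⟨enum⟩ : Nonempty (CofIndex η ≃ s) :=
    Cardinal.eq.1 ((mk_cofIndex η).trans hsc.symm)
  let e : CofIndex η → Ordinal.{u} := fun i => (ToType.toOrd (enum i).1).1
  let c : CofIndex η → Ordinal.{u} := wellFounded_lt.fix fun i rec =>
    ⨆ j : Iio i, max (rec j.1 j.2) (e j.1) + 1
  have hc : ∀ i, c i = ⨆ j : Iio i, max (c j.1) (e j.1) + 1 := fun i => by
    simp only [c]
    rw [WellFounded.fix_eq]
  have hlt : ∀ i, c i < η := fun i => by
    induction i using WellFoundedLT.induction with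
    | ind i ih =>
      rw [hc]
      refine iSup_lt_of_lt_cof ((hI.small i).trans_le ?_) fun j =>
        hlim.add_one_lt (max_lt (ih j.1 j.2) (ToType.toOrd (enum j.1).1).2)
      rw [cof_toType, cof_ord_cof]
  have hle : ∀ {j i}, j < i → max (c j) (e j) + 1 ≤ c i := fun {j i} hji => by
    rw [hc i]
    exact Ordinal.le_iSup (fun j : Iio i => max (c j.1) (e j.1) + 1) ⟨j, hji⟩
  have hmono : StrictMono c := fun j i hji =>
    (le_max_left _ _).trans_lt ((Order.lt_add_one_iff.2 le_rfl).trans_le (hle hji))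
  refine ⟨c, hmono, hlt, fun x hx => ?_, fun i hi x hx => ?_⟩
  · obtain ⟨y, hy, hxy⟩ := hs (ToType.mk ⟨x, hx⟩)
    obtain ⟨i, hi⟩ := hI.exists_gt (enum.symm ⟨y, hy⟩)
    refine ⟨i, (Order.lt_add_one_iff.2 ?_).trans_le (hle hi)⟩
    refine le_trans ?_ (le_max_right _ _)
    simp only [e, Equiv.apply_symm_apply]
    have := ToType.mk.symm.monotone hxy
    simpa using Subtype.coe_le_coe.2 this
  · rw [hc, Ordinal.lt_iSup_iff] at hx
    obtain ⟨⟨j, hj⟩, hxj⟩ := hx
    obtain ⟨k, hjk, hki⟩ := hi j hj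
    exact ⟨k, hki, hxj.trans_le (hle hjk)⟩

/-- Stationary sets of the ordinal give stationary sets of indices. -/
theorem isStationary_preimage {η : Ordinal.{u}} (hη : ℵ₀ < η.cof) {c : CofIndex η → Ordinal.{u}}
    (hc : StrictMono c) (hlt : ∀ i, c i < η) (hcofinal : ∀ x < η, ∃ i, x < c i)
    (hcont : ∀ i, (∀ j < i, ∃ k, j < k ∧ k < i) → ∀ x < c i, ∃ j < i, x < c j)
    (p : Ordinal.{u} → Prop) (hp : IsStationary {x : η.ToType | p (ToType.toOrd x).1}) :
    IsStationary {i | p (c i)} := by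
  have hI := regularIndex_cofIndex hη
  obtain ⟨Lim, hLim, hLim'⟩ := exists_club_limits hI
  intro D hD
  have hD' := hD.inter hI.cof_ne hLim
  let d : Set η.ToType := {x | ∃ i ∈ D ∩ Lim, c i = (ToType.toOrd x).1}
  have hd : IsClub d := by
    refine ⟨fun t ht hne _ x hx => ?_, fun x => ?_⟩
    · set x₀ := (ToType.toOrd x).1
      have hto : ∀ {a b : η.ToType}, a ≤ b → (ToType.toOrd a).1 ≤ (ToType.toOrd b).1 :=
        fun {a b} hab => ToType.mk.symm.monotone hab
      obtain ⟨k, hk⟩ := hcofinal x₀ (ToType.toOrd x).2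
      let t' : Set (CofIndex η) := {i | i ∈ D ∩ Lim ∧ ∃ y ∈ t, c i = (ToType.toOrd y).1}
      have hk' : ∀ i ∈ t', i ≤ k := fun i ⟨_, y, hy, hiy⟩ =>
        hc.le_iff_le.1 ((hiy.trans_le (hto (hx.1 hy))).trans hk.le)
      obtain ⟨i, hi⟩ := exists_isLUB_of_bound hk'
      have hne' : t'.Nonempty := by
        obtain ⟨y, hy⟩ := hne
        obtain ⟨j, hj, hjy⟩ := ht hy
        exact ⟨j, hj, y, hy, hjy⟩
      have him : i ∈ D ∩ Lim := hD'.isLUB_mem (fun j hj => hj.1) hne' hi
      refine ⟨i, him, le_antisymm (not_lt.1 fun hlt' => ?_) ?_⟩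
      · obtain ⟨j, hji, hxj⟩ := hcont i (hLim' i him.2).2 x₀ hlt'
        obtain ⟨m, ⟨-, y, hy, hmy⟩, hjm⟩ := (lt_isLUB_iff hi).1 hji
        exact ((hxj.trans (hc hjm)).trans_le (hmy.trans_le (hto (hx.1 hy)))).false
      · have hub : x ≤ ToType.mk ⟨c i, hlt i⟩ := by
          refine hx.2 fun y hy => ?_
          obtain ⟨j, hj, hjy⟩ := ht hy
          rw [← ToType.mk.symm.le_iff_le]
          refine Subtype.coe_le_coe.1 ?_
          simpa [hjy] using (hc.monotone (hi.1 ⟨hj, y, hy, hjy⟩))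
        simpa using hto hub
    · obtain ⟨k, hk⟩ := hcofinal (ToType.toOrd x).1 (ToType.toOrd x).2
      obtain ⟨i, hi, hki⟩ := hD'.isCofinal k
      refine ⟨ToType.mk ⟨c i, hlt i⟩, ⟨i, hi, by simp⟩, ?_⟩
      rw [← ToType.mk.symm.le_iff_le]
      refine Subtype.coe_le_coe.1 ?_
      simpa using hk.le.trans (hc.monotone hki)
  obtain ⟨x, hpx, i, hi, hix⟩ := hp hd
  exact ⟨i, show p (c i) from hix ▸ hpx, hi.1⟩

/-- **Subsets leave almost disjoint traces.** -/
theorem exists_traces {η : Ordinal.{u}} (hη : ℵ₀ < η.cof) {c : CofIndex η → Ordinal.{u}}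
    (hc : StrictMono c) (hcofinal : ∀ x < η, ∃ i, x < c i) (φ : CofIndex η → Ordinal.{u})
    (hφ : ∀ i, 2 ^ ℵ_ (c i) ≤ ℵ_ (φ i)) :
    ∃ f : Set (ω_ η).ToType → CofIndex η → Ordinal.{u},
      AlmostDisjoint f ∧ ∀ X i, f X i < ω_ (φ i) := by
  classical
  let W : CofIndex η → Set (ω_ η).ToType := fun i => {x | (ToType.toOrd x).1 < ω_ (c i)}
  have hW : ∀ i, #(W i) ≤ ℵ_ (c i) := fun i => by
    have hinj : Function.Injective fun x : W i => ToType.mk (o := ω_ (c i))
        ⟨(ToType.toOrd x.1).1, x.2⟩ := fun x y hxy =>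
      Subtype.ext (ToType.mk.symm.injective (Subtype.ext (by simpa using hxy)))
    refine (mk_le_of_injective hinj).trans ?_
    rw [mk_toType, card_omega]
  have hcode : ∀ i, Nonempty (Set (W i) ↪ (ω_ (φ i)).ToType) := fun i => by
    rw [← Cardinal.le_def, mk_set, mk_toType, card_omega]
    exact (power_le_power_left two_ne_zero (hW i)).trans (hφ i)
  let code := fun i => (hcode i).some
  refine ⟨fun X i => (ToType.toOrd (code i {w | w.1 ∈ X})).1, fun X Y hXY hcof => ?_,
    fun X i => (ToType.toOrd _).2⟩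
  obtain ⟨x, hx⟩ : ∃ x, ¬(x ∈ X ↔ x ∈ Y) := by
    by_contra! h
    exact hXY (Set.ext h)
  obtain ⟨o, ho, hxo⟩ := (isNormal_omega.lt_iff_exists_lt
    (isSuccLimit_of_cof hη) (b := (ToType.toOrd x).1)).1 (ToType.toOrd x).2
  obtain ⟨j, hj⟩ := hcofinal o ho
  obtain ⟨i, hi, hji⟩ := hcof j
  have hxW : x ∈ W i := hxo.trans (omega_lt_omega.2 (hj.trans_le (hc.monotone hji)))
  have := (code i).injective (ToType.mk.symm.injective (Subtype.ext hi))
  exact hx (Set.ext_iff.1 this ⟨x, hxW⟩)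

end FA.SingularCardinals
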