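import Fermat.Agent.SingularCardinals.Rank
import Fermat.Agent.SingularCardinals.Sequence

/-!
# Bounds on almost disjoint families

The two counting theorems behind Silver and Galvin-Hajnal.
-/

set_option autoImplicit false

universe u

namespace FA.SingularCardinals

open Cardinal Set Ordinal

theorem card_add_one_le_aleph {x o : Ordinal.{u}} (h : x.card ≤ ℵ_ o) : (x + 1).card ≤ ℵ_ o := by
  rw [card_add_one]
  exact (add_le_add h (one_le_aleph0.trans (aleph0_le_aleph o))).trans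
    (add_eq_self (aleph0_le_aleph o)).le

/-- The size of a point below an aleph is at most a smaller one. -/
theorem exists_aleph_bound {v x : Ordinal.{u}} (hv : 0 < v) (hx : x < ω_ v) :
    ∃ o < v, (x + 1).card ≤ ℵ_ o := by
  obtain rfl | ⟨a, rfl⟩ | hlim := zero_or_succ_or_isSuccLimit v
  · exact absurd hv (lt_irrefl _)
  · refine ⟨a, Order.lt_succ a, card_add_one_le_aleph ?_⟩
    rw [lt_omega_iff_card_lt, Order.succ_eq_add_one, ← succ_aleph] at hx
    exact Order.lt_succ_iff.1 hx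
  · obtain ⟨o, ho, hxo⟩ := (isNormal_omega.lt_iff_exists_lt hlim).1 hx
    exact ⟨o, ho, card_add_one_le_aleph (lt_omega_iff_card_lt.1 hxo).le⟩

/-- Along a continuous sequence the initial ordinals are continuous. -/
theorem omega_seq_continuous {I : Type u} [LinearOrder I] {c : I → Ordinal.{u}} (hc : StrictMono c)
    {i : I} (hi : ∃ j, j < i) (hcont : ∀ x < c i, ∃ j < i, x < c j) :
    ∀ x < ω_ (c i), ∃ j < i, x < ω_ (c j) := by
  intro x hx
  obtain ⟨j, hj⟩ := hi
  have hlim : Order.IsSuccLimit (c i) :=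
    ⟨not_isMin_iff.2 ⟨_, hc hj⟩, Order.isSuccPrelimit_of_succ_lt fun a ha => by
      obtain ⟨k, hk, hak⟩ := hcont a ha
      exact (Order.succ_le_of_lt hak).trans_lt (hc hk)⟩
  obtain ⟨o, ho, hxo⟩ := (isNormal_omega.lt_iff_exists_lt hlim).1 hx
  obtain ⟨k, hk, hok⟩ := hcont o ho
  exact ⟨k, hk, hxo.trans (omega_lt_omega.2 hok)⟩

/-- Small powers below a strong limit. -/
theorem power_lt_of_isStrongLimit {κ a b : Cardinal.{u}} (hκ : κ.IsStrongLimit) (ha : a < κ)
    (hb : b < κ) : a ^ b < κ := by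
  refine lt_of_le_of_lt ((power_le_power_right (cantor a).le).trans_eq power_mul.symm) ?_
  exact hκ.isStrongPrelimit (mul_lt_of_lt hκ.aleph0_le ha hb)

variable {η : Ordinal.{u}}

theorem small_powers (hκ : (ℵ_ η).IsStrongLimit) (hsing : η.cof < ℵ_ η)
    {c : CofIndex η → Ordinal.{u}} (hlt : ∀ i, c i < η) :
    (∀ j, ((ω_ (c j)).card + 1) ^ #(CofIndex η) ≤ ℵ_ η) ∧ 2 ^ #(CofIndex η) ≤ ℵ_ η := by
  rw [mk_cofIndex]
  refine ⟨fun j => (power_lt_of_isStrongLimit hκ ?_ hsing).le, (hκ.isStrongPrelimit hsing).le⟩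
  rw [card_omega, add_one_eq (aleph0_le_aleph _)]
  exact aleph_lt_aleph.2 (hlt j)

/-- **Silver's count.** Values below the successor alephs of the sequence on a stationary set
give at most the successor of the top. -/
theorem card_le_succ_of_successor_values (hη : ℵ₀ < η.cof) (hκ : (ℵ_ η).IsStrongLimit)
    (hsing : η.cof < ℵ_ η) {c : CofIndex η → Ordinal.{u}}
    (hlt : ∀ i, c i < η) {S : Set (CofIndex η)} (hS : IsStationary S)
    (hcont : ∀ i ∈ S, ∀ x < ω_ (c i), ∃ j < i, x < ω_ (c j)) {ι : Type u}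
    {f : ι → CofIndex η → Ordinal.{u}} (hf : AlmostDisjoint f)
    (hval : ∀ a, ∀ i ∈ S, f a i < ω_ (c i + 1)) : #ι ≤ Order.succ (ℵ_ η) := by
  have hI := regularIndex_cofIndex hη
  obtain ⟨hsmall, hpow⟩ := small_powers hκ hsing hlt
  refine card_le_succ_of_predecessors (R := fun b a => IsStationary {i ∈ S | f b i ≤ f a i})
    (aleph0_le_aleph η) (fun a b => ?_) fun a => ?_
  · rw [← isStationary_union_iff hI.cof_ne]
    exact hS.mono fun i hi => (le_total (f a i) (f b i)).imp (fun h => ⟨hi, h⟩) fun h => ⟨hi, h⟩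
  · refine card_predecessors_le hI hcont (aleph0_le_aleph η) hsmall hpow hf (f a) fun i hi => ?_
    rw [card_omega]
    refine card_add_one_le_aleph (Order.lt_succ_iff.1 ?_)
    rw [succ_aleph, ← lt_omega_iff_card_lt]
    exact hval a i hi

/-- **The count of Galvin and Hajnal.** Almost disjoint families with values below the aleph are
bounded by an aleph with index below the successor of the number of index functions. -/
theorem exists_aleph_bound_family (hη : ℵ₀ < η.cof) (hκ : (ℵ_ η).IsStrongLimit)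
    (hsing : η.cof < ℵ_ η) {c : CofIndex η → Ordinal.{u}} (hc : StrictMono c)
    (hlt : ∀ i, c i < η)
    (hcont : ∀ i, (∀ j < i, ∃ k, j < k ∧ k < i) → ∀ x < c i, ∃ j < i, x < c j)
    (φ : CofIndex η → η.ToType) {S : Set (CofIndex η)} (hS : IsStationary S) {ι : Type u}
    {f : ι → CofIndex η → Ordinal.{u}} (hf : AlmostDisjoint f)
    (hval : ∀ a, AlmostAllOn S fun i => f a i < ω_ (ToType.toOrd (φ i)).1) :
    ∃ γ < (Order.succ (η.card ^ η.cof)).ord, #ι ≤ ℵ_ γ := by
  classical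
  have hI := regularIndex_cofIndex hη
  obtain ⟨hsmall, hpow⟩ := small_powers hκ hsing hlt
  have hηcard : ℵ₀ ≤ η.card := hη.le.trans (cof_le_card η)
  have hcof1 : (1 : Cardinal) ≤ η.cof := one_le_aleph0.trans hη.le
  set Θ := Order.succ (η.card ^ η.cof)
  have hpowinf : ℵ₀ ≤ η.card ^ η.cof := hηcard.trans (self_le_power _ hcof1)
  have hΘlim : Order.IsSuccLimit Θ.ord := isSuccLimit_ord (hpowinf.trans (Order.le_succ _))
  have hηΘ : η < Θ.ord := lt_ord.2 ((self_le_power _ hcof1).trans_lt (Order.lt_succ _))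
  obtain ⟨Lim, hLim, hLim'⟩ := exists_club_limits hI
  suffices key : ∀ ν : Ordinal.{u}, ∀ (S : Set (CofIndex η)) (φ : CofIndex η → η.ToType),
      IsStationary S → rankOn S φ = ν → ∃ γ < Θ.ord,
        ∀ (ι : Type u) (f : ι → CofIndex η → Ordinal.{u}), AlmostDisjoint f →
          (∀ a, AlmostAllOn S fun i => f a i < ω_ (ToType.toOrd (φ i)).1) → #ι ≤ ℵ_ γ by
    obtain ⟨γ, hγ, h⟩ := key _ S φ hS rfl
    exact ⟨γ, hγ, h ι f hf hval⟩
  intro ν
  induction ν using WellFoundedLT.induction with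
  | ind ν ih =>
    intro S φ hS hν
    let v : CofIndex η → Ordinal.{u} := fun i => (ToType.toOrd (φ i)).1
    by_cases hA : IsStationary {i ∈ S | v i ≤ c i}
    · refine ⟨η, hηΘ, fun ι f hf hval => card_almostDisjoint_le hI (S := S ∩ Lim)
        (c := fun i => ω_ (c i))
        (fun i hi => omega_seq_continuous hc (hLim' i hi.2).1 (hcont i (hLim' i hi.2).2))
        (aleph0_le_aleph η) hsmall hpow hf fun a => ?_⟩
      obtain ⟨C, hC, hCa⟩ := hval a
      exact (isStationary_inter_club hI (isStationary_inter_club hI hA hLim) hC).mono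
        fun i hi => ⟨⟨hi.1.1.1, hi.1.2⟩,
          (hCa i hi.1.1.1 hi.2).trans_le (omega_le_omega.2 hi.1.1.2)⟩
    obtain ⟨C₀, hC₀, hC₀'⟩ := not_isStationary_iff.1 hA
    have hG : ∀ p : Set (CofIndex η) × (CofIndex η → η.ToType), ∃ γ < Θ.ord,
        IsStationary p.1 → rankOn p.1 p.2 < ν →
          ∀ (ι : Type u) (f : ι → CofIndex η → Ordinal.{u}), AlmostDisjoint f →
            (∀ a, AlmostAllOn p.1 fun i => f a i < ω_ (ToType.toOrd (p.2 i)).1) →
              #ι ≤ ℵ_ γ := fun p => by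
      by_cases h : IsStationary p.1 ∧ rankOn p.1 p.2 < ν
      · obtain ⟨γ, hγ, h'⟩ := ih _ h.2 p.1 p.2 h.1 rfl
        exact ⟨γ, hγ, fun _ _ => h'⟩
      · exact ⟨η, hηΘ, fun h1 h2 => absurd ⟨h1, h2⟩ h⟩
    choose G hGΘ hG using hG
    have hpairs : #(Set (CofIndex η) × (CofIndex η → η.ToType)) < Θ.ord.cof := by
      rw [mk_prod, Cardinal.lift_id, Cardinal.lift_id, mk_set, mk_arrow, Cardinal.lift_id,
        Cardinal.lift_id, mk_cofIndex, mk_toType,
        (isRegular_succ hpowinf).cof_ord]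
      refine Order.lt_succ_iff.2 ((mul_le_mul' (power_le_power_right ?_) le_rfl).trans
        (mul_eq_self hpowinf).le)
      exact (two_le_iff_one_lt.2 (one_lt_aleph0.trans_le hηcard))
    set γ := max η (⨆ p, G p)
    have hγ : γ < Θ.ord := max_lt hηΘ (iSup_lt_of_lt_cof hpairs hGΘ)
    refine ⟨γ + 1, hΘlim.add_one_lt hγ, fun ι f hf hval => ?_⟩
    rw [← succ_aleph]
    have hψ : ∀ (a : ι) (i : CofIndex η), ∃ o : η.ToType, 0 < v i → f a i < ω_ (v i) →
        (ToType.toOrd o).1 < v i ∧ (f a i + 1).card ≤ ℵ_ (ToType.toOrd o).1 := fun a i => by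
      by_cases h : 0 < v i ∧ f a i < ω_ (v i)
      · obtain ⟨o, ho, hcard⟩ := exists_aleph_bound h.1 h.2
        have e : (ToType.toOrd (ToType.mk ⟨o, ho.trans (ToType.toOrd (φ i)).2⟩)).1 = o := by simp
        exact ⟨ToType.mk ⟨o, ho.trans (ToType.toOrd (φ i)).2⟩,
          fun _ _ => by rw [e]; exact ⟨ho, hcard⟩⟩
      · exact ⟨φ i, fun h1 h2 => absurd ⟨h1, h2⟩ h⟩
    choose ψ hψ using hψ
    refine card_le_succ_of_predecessors (R := fun b a => ∃ S' ⊆ S,
      IsStationary S' ∧ rankOn S' φ ≤ rankOn S φ ∧ ∀ i ∈ S', f b i ≤ f a i)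
      (aleph0_le_aleph γ) (fun a b => ?_) fun a => ?_
    · have hU : {i ∈ S | f a i ≤ f b i} ∪ {i ∈ S | f b i ≤ f a i} = S := by
        ext i
        exact ⟨fun h => h.elim And.left And.left, fun hi =>
          (le_total (f a i) (f b i)).imp (fun h => ⟨hi, h⟩) fun h => ⟨hi, h⟩⟩
      rcases exists_part_rankOn_le hI (hU.symm ▸ hS) φ with h | h <;> rw [hU] at h
      · exact .inl ⟨_, Set.sep_subset _ _, h.1, h.2, fun i hi => hi.2⟩
      · exact .inr ⟨_, Set.sep_subset _ _, h.1, h.2, fun i hi => hi.2⟩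
    · let piece : Set (CofIndex η) → Set ι := fun S' => {b | S' ⊆ S ∧ IsStationary S' ∧
        rankOn S' φ ≤ rankOn S φ ∧ ∀ i ∈ S', f b i ≤ f a i}
      have hcover : #{b // ∃ S' ⊆ S, IsStationary S' ∧ rankOn S' φ ≤ rankOn S φ ∧
          ∀ i ∈ S', f b i ≤ f a i} ≤ #(⋃ S', piece S' : Set ι) :=
        mk_le_mk_of_subset (s := {b | ∃ S' ⊆ S, IsStationary S' ∧ rankOn S' φ ≤ rankOn S φ ∧
          ∀ i ∈ S', f b i ≤ f a i}) fun b ⟨S', h⟩ => Set.mem_iUnion.2 ⟨S', h⟩
      refine hcover.trans ((mk_iUnion_le piece).trans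
        ((mul_le_mul' ?_ (ciSup_le' fun S' => ?_)).trans
        (mul_eq_self (aleph0_le_aleph γ)).le))
      · rw [mk_set]
        exact hpow.trans (aleph_le_aleph.2 (le_max_left _ _))
      rcases Set.eq_empty_or_nonempty (piece S') with he | ⟨b, hsub, hstat, hrank, -⟩
      · simp [he]
      obtain ⟨C, hC, hCa⟩ := hval a
      have hgood : ∀ i ∈ S', i ∈ C ∩ C₀ → (ToType.toOrd (ψ a i)).1 < v i ∧
          (f a i + 1).card ≤ (ω_ (ToType.toOrd (ψ a i)).1).card := fun i hi hiC => by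
        rw [card_omega]
        refine hψ a i ?_ (hCa i (hsub hi) hiC.1)
        exact zero_le.trans_lt (lt_of_not_ge fun h =>
          Set.disjoint_left.1 hC₀' (show i ∈ {i ∈ S | v i ≤ c i} from ⟨hsub hi, h⟩) hiC.2)
      have hlow : LowerOn S' (ψ a) φ := ⟨C ∩ C₀, hC.inter hI.cof_ne hC₀, fun i hi hiC =>
        ToType.mk.symm.lt_iff_lt.1 (Subtype.coe_lt_coe.1 (hgood i hi hiC).1)⟩
      obtain ⟨f', hf', hlt'⟩ := hf.exists_compressed (f a) fun i => ω_ (ToType.toOrd (ψ a i)).1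
      refine (hG (S', ψ a) hstat ((rankOn_lt hI hstat hlow).trans_le (hrank.trans hν.le))
        (piece S') (fun b => f' b) (hf'.comp Subtype.val_injective) fun b => ?_).trans
          (aleph_le_aleph.2 ((Ordinal.le_iSup G (S', ψ a)).trans (le_max_right _ _)))
      exact ⟨C ∩ C₀, hC.inter hI.cof_ne hC₀, fun i hi hiC =>
        hlt' _ i (hgood i hi hiC).2 (b.2.2.2.2 i hi)⟩

end FA.SingularCardinals
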