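import Mathlib.SetTheory.Cardinal.Cofinality.Club
import Mathlib.SetTheory.Cardinal.Cofinality.Ordinal
import Mathlib.SetTheory.Cardinal.Regular
import Mathlib.SetTheory.Cardinal.Arithmetic

/-!
# Club sets in regular orders and the lemma of Fodor

Diagonal intersections of club sets are club, so regressive functions on stationary sets are
constant on stationary sets.
-/

set_option autoImplicit false

universe u

namespace FA.SingularCardinals

open Cardinal Set

variable {I : Type u} [LinearOrder I]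

/-- A well order whose cofinality is uncountable and exceeds every initial segment. -/
structure RegularIndex (I : Type u) [LinearOrder I] : Prop where
  uncountable : ℵ₀ < Order.cof I
  small : ∀ i : I, #(Iio i) < Order.cof I

theorem RegularIndex.cof_ne (h : RegularIndex I) : Order.cof I ≠ ℵ₀ :=
  h.uncountable.ne'

theorem RegularIndex.nonempty (h : RegularIndex I) : Nonempty I :=
  Order.cof_ne_zero_iff.1 (aleph0_pos.trans h.uncountable).ne'

theorem RegularIndex.exists_gt (h : RegularIndex I) (a : I) : ∃ b, a < b := by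
  by_contra! hn
  exact (one_lt_aleph0.trans h.uncountable).not_ge
    ((Order.cof_le (s := {a}) fun b => ⟨a, rfl, hn b⟩).trans (mk_singleton a).le)

/-- Sets smaller than the cofinality are bounded strictly. -/
theorem exists_strict_bound {s : Set I} (hs : #s < Order.cof I) :
    ∃ b, ∀ a ∈ s, a < b :=
  not_isCofinal_iff.1 fun hc => hs.not_ge (Order.cof_le hc)

/-- Holds on a club within the set. -/
def AlmostAllOn (S : Set I) (p : I → Prop) : Prop :=
  ∃ C, IsClub C ∧ ∀ i ∈ S, i ∈ C → p i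

theorem isClub_Ioi (h : RegularIndex I) (a : I) : IsClub (Ioi a) := by
  refine ⟨fun t ht ⟨b, hb⟩ _ x hx => (ht hb).trans_le (hx.1 hb), fun b => ?_⟩
  obtain ⟨c, hc⟩ := h.exists_gt (max a b)
  exact ⟨c, (le_max_left a b).trans_lt hc, ((le_max_right a b).trans_lt hc).le⟩

variable [WellFoundedLT I]

theorem exists_isLUB_of_bound {s : Set I} {b : I} (hb : ∀ a ∈ s, a ≤ b) : ∃ x, IsLUB s x :=
  ⟨wellFounded_lt.min (upperBounds s) ⟨b, hb⟩, wellFounded_lt.min_mem _ _, fun _ hc =>
    not_lt.1 (wellFounded_lt.not_lt_min (upperBounds s) hc)⟩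

/-- **Diagonal intersections of club sets are club.** -/
theorem isClub_diagonal (h : RegularIndex I) (C : I → Set I) (hC : ∀ a, IsClub (C a)) :
    IsClub {i | ∀ a < i, i ∈ C a} := by
  refine ⟨fun t ht hne _ x hx a hax => ?_, fun a₀ => ?_⟩
  · obtain ⟨b, hb, hab⟩ := (lt_isLUB_iff hx).1 hax
    refine (hC a).isLUB_mem (t := t ∩ Ici b) (fun y hy => ht hy.1 a (hab.trans_le hy.2))
      ⟨b, hb, le_rfl⟩ ⟨fun y hy => hx.1 hy.1, fun z hz => hx.2 fun y hy => ?_⟩
    rcases le_total b y with hby | hby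
    exacts [hz ⟨hy, hby⟩, hby.trans (hz ⟨hb, le_rfl⟩)]
  · have hstep : ∀ x : I, ∃ y, x < y ∧ ∀ a ≤ x, y ∈ C a := fun x => by
      have hsmall : #(Iic x) < Order.cof I := by
        rw [← Iio_insert]
        exact mk_insert_le.trans_lt (add_lt_of_lt h.uncountable.le (h.small x)
          (one_lt_aleph0.trans h.uncountable))
      have hclub : IsClub (⋂ a : Iic x, C a) :=
        IsClub.iInter h.cof_ne (by simpa using hsmall) fun a => hC a
      obtain ⟨z, hz⟩ := h.exists_gt x
      obtain ⟨y, hy, hzy⟩ := hclub.isCofinal z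
      exact ⟨y, hz.trans_le hzy, fun a ha => Set.mem_iInter.1 hy ⟨a, ha⟩⟩
    choose next hlt hmem using hstep
    let g : ℕ → I := fun n => Nat.rec a₀ (fun _ x => next x) n
    have hg : StrictMono g := strictMono_nat_of_lt_succ fun n => hlt _
    obtain ⟨b, hb⟩ := exists_strict_bound (s := range g)
      (((countable_range g).le_aleph0).trans_lt h.uncountable)
    obtain ⟨x, hx⟩ := exists_isLUB_of_bound fun a ha => (hb a ha).le
    refine ⟨x, fun a ha => ?_, hx.1 ⟨0, rfl⟩⟩
    obtain ⟨_, ⟨n, rfl⟩, han⟩ := (lt_isLUB_iff hx).1 ha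
    refine (hC a).isLUB_mem (t := range fun m => g (n + m + 1)) ?_ (range_nonempty _)
      ⟨?_, fun z hz => hx.2 ?_⟩
    · rintro _ ⟨m, rfl⟩
      exact hmem _ a (han.le.trans (hg.monotone (Nat.le_add_right n m)))
    · rintro _ ⟨m, rfl⟩
      exact hx.1 (mem_range_self (n + m + 1))
    · rintro _ ⟨m, rfl⟩
      exact (hg.monotone (by omega : m ≤ n + m + 1)).trans (hz ⟨m, rfl⟩)

/-- A club of points approached from below. -/
theorem exists_club_limits (h : RegularIndex I) :
    ∃ C : Set I, IsClub C ∧ ∀ i ∈ C, (∃ j, j < i) ∧ ∀ j < i, ∃ k, j < k ∧ k < i := by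
  choose next hnext using h.exists_gt
  obtain ⟨a₀⟩ := h.nonempty
  refine ⟨{i | ∀ a < i, i ∈ Ioi (next a)} ∩ Ioi a₀, (isClub_diagonal h _ fun a =>
    isClub_Ioi h _).inter h.cof_ne (isClub_Ioi h a₀), fun i hi => ⟨⟨a₀, hi.2⟩, fun j hj => ?_⟩⟩
  exact ⟨next j, hnext j, hi.1 j hj⟩

theorem isStationary_inter_club (h : RegularIndex I) {S C : Set I} (hS : IsStationary S)
    (hC : IsClub C) : IsStationary (S ∩ C) := fun D hD => by
  obtain ⟨i, hiS, hiC, hiD⟩ := hS (hC.inter h.cof_ne hD)
  exact ⟨i, ⟨hiS, hiC⟩, hiD⟩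

omit [WellFoundedLT I] in
theorem exists_gt_of_isStationary (h : RegularIndex I) {S : Set I} (hS : IsStationary S) (a : I) :
    ∃ i ∈ S, a < i :=
  let ⟨i, hi⟩ := hS (isClub_Ioi h a)
  ⟨i, hi.1, hi.2⟩

/-- **Fodor's lemma.** A regressive function on a stationary set is constant on a stationary
set. -/
theorem exists_stationary_fiber (h : RegularIndex I) {S : Set I} (hS : IsStationary S)
    (r : I → I) (hr : ∀ i ∈ S, r i < i) : ∃ a, IsStationary {i ∈ S | r i = a} := by
  by_contra! hn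
  choose C hC hdis using fun a => not_isStationary_iff.1 (hn a)
  obtain ⟨i, hi, hiD⟩ := hS (isClub_diagonal h C hC)
  exact Set.disjoint_left.1 (hdis (r i)) ⟨hi, rfl⟩ (hiD (r i) (hr i hi))

omit [WellFoundedLT I] in
theorem almostAllOn_of_forall {S : Set I} {p : I → Prop} (hp : ∀ i ∈ S, p i) : AlmostAllOn S p :=
  ⟨univ, .univ, fun i hi _ => hp i hi⟩

omit [WellFoundedLT I] in
theorem AlmostAllOn.mono {S T : Set I} {p q : I → Prop} (hp : AlmostAllOn T p) (hST : S ⊆ T)
    (hpq : ∀ i ∈ S, p i → q i) : AlmostAllOn S q :=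
  let ⟨C, hC, hC'⟩ := hp
  ⟨C, hC, fun i hi hiC => hpq i hi (hC' i (hST hi) hiC)⟩

omit [WellFoundedLT I] in
theorem almostAllOn_of_not_isStationary {S : Set I} {p : I → Prop} (hS : ¬IsStationary S) :
    AlmostAllOn S p :=
  let ⟨C, hC, hd⟩ := not_isStationary_iff.1 hS
  ⟨C, hC, fun _ hi hiC => absurd hiC (Set.disjoint_left.1 hd hi)⟩

theorem AlmostAllOn.union (h : RegularIndex I) {S T : Set I} {p : I → Prop}
    (hS : AlmostAllOn S p) (hT : AlmostAllOn T p) : AlmostAllOn (S ∪ T) p :=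
  let ⟨C, hC, hC'⟩ := hS
  let ⟨D, hD, hD'⟩ := hT
  ⟨C ∩ D, hC.inter h.cof_ne hD, fun i hi hiCD => hi.elim (fun hi => hC' i hi hiCD.1)
    fun hi => hD' i hi hiCD.2⟩

end FA.SingularCardinals
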