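import Fermat.Agent.SingularCardinals.Fodor
import Mathlib.SetTheory.Ordinal.Rank

/-!
# Ranks modulo club sets

On a stationary set, functions into a well order are well ordered enough by being below almost
everywhere. The rank on a union of two sets is the lesser of the two ranks.
-/

set_option autoImplicit false

universe u

namespace FA.SingularCardinals

open Cardinal Set

variable {I : Type u} [LinearOrder I] [WellFoundedLT I] {β : Type u} [LinearOrder β]
  [WellFoundedLT β]

/-- Below almost everywhere on a set. -/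
def LowerOn (S : Set I) (ψ φ : I → β) : Prop :=
  AlmostAllOn S fun i => ψ i < φ i

theorem wellFounded_lowerOn (hI : RegularIndex I) {S : Set I} (hS : IsStationary S) :
    WellFounded (LowerOn (β := β) S) := by
  refine wellFounded_iff_isEmpty_descending_chain.2 ⟨fun ⟨f, hf⟩ => ?_⟩
  choose C hC hC' using hf
  obtain ⟨i, hi, hiC⟩ := hS (IsClub.iInter_of_countable hI.cof_ne hC)
  obtain ⟨_, ⟨n, rfl⟩, hn⟩ := wellFounded_lt.has_min (Set.range fun n => f n i) ⟨_, 0, rfl⟩
  exact hn _ ⟨n + 1, rfl⟩ (hC' n i hi (Set.mem_iInter.1 hiC n))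

open Classical in
/-- The rank of a function on a set. -/
noncomputable def rankOn (S : Set I) (φ : I → β) : Ordinal.{u} :=
  if h : WellFounded (LowerOn (β := β) S) then (h.apply φ).rank else 0

theorem rankOn_lt (hI : RegularIndex I) {S : Set I} (hS : IsStationary S) {ψ φ : I → β}
    (h : LowerOn S ψ φ) : rankOn S ψ < rankOn S φ := by
  simp only [rankOn, dif_pos (wellFounded_lowerOn hI hS (β := β))]
  exact Acc.rank_lt_of_rel _ h

theorem rankOn_le (hI : RegularIndex I) {S : Set I} (hS : IsStationary S) {φ : I → β}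
    {ν : Ordinal.{u}} (h : ∀ ψ, LowerOn S ψ φ → rankOn S ψ < ν) : rankOn S φ ≤ ν := by
  simp only [rankOn, dif_pos (wellFounded_lowerOn hI hS (β := β))] at h ⊢
  rw [Acc.rank_eq]
  exact Ordinal.iSup_le fun ψ => Order.succ_le_of_lt (h ψ.1 ψ.2)

theorem exists_lowerOn_of_lt (hI : RegularIndex I) {S : Set I} (hS : IsStationary S)
    {φ : I → β} {μ : Ordinal.{u}} (h : μ < rankOn S φ) :
    ∃ ψ, LowerOn S ψ φ ∧ μ ≤ rankOn S ψ := by
  by_contra! hn
  exact h.not_ge (rankOn_le hI hS hn)

theorem rankOn_congr (hI : RegularIndex I) {S : Set I} (hS : IsStationary S) {ψ ψ' : I → β}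
    (h : ∀ i ∈ S, ψ i = ψ' i) : rankOn S ψ = rankOn S ψ' := by
  refine le_antisymm (rankOn_le hI hS fun χ hχ => rankOn_lt hI hS
    (hχ.mono Subset.rfl fun i hi hlt => h i hi ▸ hlt))
    (rankOn_le hI hS fun χ hχ => rankOn_lt hI hS
    (hχ.mono Subset.rfl fun i hi hlt => (h i hi).symm ▸ hlt))

/-- Larger sets have smaller ranks. -/
theorem rankOn_anti (hI : RegularIndex I) {S T : Set I} (hS : IsStationary S) (hST : S ⊆ T)
    (φ : I → β) : rankOn T φ ≤ rankOn S φ := by
  induction φ using (wellFounded_lowerOn hI (hS.mono hST) (β := β)).induction with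
  | _ φ ih =>
    exact rankOn_le hI (hS.mono hST) fun ψ hψ =>
      (ih ψ hψ).trans_lt (rankOn_lt hI hS (hψ.mono hST fun _ _ => id))

/-- The rank on a union is at least what both parts allow. -/
theorem le_rankOn_union (hI : RegularIndex I) {ν : Ordinal.{u}} {S T : Set I}
    (hU : IsStationary (S ∪ T)) {φ : I → β} (hS : IsStationary S → ν ≤ rankOn S φ)
    (hT : IsStationary T → ν ≤ rankOn T φ) : ν ≤ rankOn (S ∪ T) φ := by
  classical
  induction ν using WellFoundedLT.induction generalizing S T φ with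
  | ind ν ih =>
    refine le_of_forall_lt fun μ hμ => ?_
    have hex : ∀ A : Set I, (IsStationary A → ν ≤ rankOn A φ) →
        ∃ ψ : I → β, LowerOn A ψ φ ∧ (IsStationary A → μ ≤ rankOn A ψ) := fun A hA => by
      by_cases h : IsStationary A
      · exact (exists_lowerOn_of_lt hI h (hμ.trans_le (hA h))).imp
          fun ψ hψ => ⟨hψ.1, fun _ => hψ.2⟩
      · exact ⟨φ, almostAllOn_of_not_isStationary h, fun h' => absurd h' h⟩
    obtain ⟨ψ₁, h₁, r₁⟩ := hex S hS
    obtain ⟨ψ₂, h₂, r₂⟩ := hex T hT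
    let ψ : I → β := fun i => if i ∈ S then ψ₁ i else ψ₂ i
    have hl : LowerOn (S ∪ T \ S) ψ φ := AlmostAllOn.union hI
      (h₁.mono Subset.rfl fun i hi h => by simpa [ψ, hi] using h)
      (h₂.mono sdiff_subset fun i hi h => by simpa [ψ, hi.2] using h)
    rw [← union_sdiff_self] at hU ⊢
    refine (ih μ hμ hU (fun h => ?_) fun h => ?_).trans_lt (rankOn_lt hI hU hl)
    · rw [rankOn_congr hI h (ψ' := ψ₁) fun i hi => if_pos hi]
      exact r₁ h
    · rw [rankOn_congr hI h (ψ' := ψ₂) fun i hi => if_neg hi.2]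
      exact (r₂ (h.mono sdiff_subset)).trans (rankOn_anti hI h sdiff_subset ψ₂)

/-- **One of two parts keeps the rank of the union.** -/
theorem exists_part_rankOn_le (hI : RegularIndex I) {S T : Set I} (hU : IsStationary (S ∪ T))
    (φ : I → β) :
    (IsStationary S ∧ rankOn S φ ≤ rankOn (S ∪ T) φ) ∨
      (IsStationary T ∧ rankOn T φ ≤ rankOn (S ∪ T) φ) := by
  by_contra! h
  refine (Order.lt_succ (rankOn (S ∪ T) φ)).not_ge
    (le_rankOn_union hI hU (fun hS => ?_) fun hT => ?_)
  · exact Order.succ_le_of_lt (h.1 hS)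
  · exact Order.succ_le_of_lt (h.2 hT)

end FA.SingularCardinals
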